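/-
S56 / GW-Euler, node EU-4b (Kummer dictionary), helper17.
Hilbert 90 for characters by the Lagrange resolvent, in the "subgroups of one big Galois group"
language (no towers of Type-level fields): `G = Gal(Ω/k)`, `N ≤ U ≤ G` subgroups, `N` of finite
index in `U` and equal to the pointwise stabiliser of a subfield `F`.  A character `χ : U → Ωˣ`
with `U`-invariant values which is trivial on `N` is of the form `σ ↦ σ β / β` with `β ∈ F`.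
Mathlib only.
-/
import Mathlib

set_option autoImplicit false
set_option linter.style.haveILetI false

namespace Fermat.Agent.TW.Euler.Kummer

open Finset

variable {k Ω : Type*} [Field k] [Field Ω] [Algebra k Ω]

section Resolvent

variable (U N : Subgroup (Ω ≃ₐ[k] Ω)) (F : IntermediateField k Ω)

/-- The Lagrange resolvent of `θ` for the character `χ` (sum over representatives of `U/N`). -/
noncomputable def resolvent [Fintype (U ⧸ N.subgroupOf U)] (χ : U →* Ωˣ) (θ : Ω) : Ω :=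
  ∑ c : U ⧸ N.subgroupOf U, ((χ c.out)⁻¹ : Ωˣ) * ((c.out : U) : Ω ≃ₐ[k] Ω) θ

variable {U N F}

theorem map_resolvent [Fintype (U ⧸ N.subgroupOf U)] (χ : U →* Ωˣ)
    (hχU : ∀ σ τ : U, (σ : Ω ≃ₐ[k] Ω) ((χ τ : Ωˣ) : Ω) = ((χ τ : Ωˣ) : Ω))
    (hχN : ∀ s : U, (s : Ω ≃ₐ[k] Ω) ∈ N → χ s = 1)
    (hNF : ∀ s ∈ N, ∀ x ∈ F, s x = x) {θ : Ω} (hθ : θ ∈ F) (σ : U) :
    (σ : Ω ≃ₐ[k] Ω) (resolvent U N χ θ) = ((χ σ : Ωˣ) : Ω) * resolvent U N χ θ := by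
  classical
  unfold resolvent
  rw [map_sum, mul_sum]
  -- reindex along `c ↦ σ • c`
  rw [← Equiv.sum_comp (MulAction.toPerm σ : Equiv.Perm (U ⧸ N.subgroupOf U))
    (fun c => ((χ σ : Ωˣ) : Ω) * (((χ c.out)⁻¹ : Ωˣ) * ((c.out : U) : Ω ≃ₐ[k] Ω) θ))]
  refine sum_congr rfl fun c _ => ?_
  rw [MulAction.toPerm_apply]
  -- representative of `σ • c`
  have hc : σ • c = QuotientGroup.mk (σ * c.out) := by
    conv_lhs => rw [← QuotientGroup.out_eq' c]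
    rfl
  obtain ⟨h, hh⟩ := QuotientGroup.mk_out_eq_mul (N.subgroupOf U) (σ * c.out)
  rw [hc, hh]
  have hhN : ((h : U) : Ω ≃ₐ[k] Ω) ∈ N := Subgroup.mem_subgroupOf.1 h.2
  have hχh : χ (h : U) = 1 := hχN _ hhN
  have e1 : χ (σ * c.out * (h : U)) = χ σ * χ c.out := by
    rw [map_mul, map_mul, hχh, mul_one]
  have e2 : ((σ * c.out * (h : U) : U) : Ω ≃ₐ[k] Ω) θ
      = (σ : Ω ≃ₐ[k] Ω) (((c.out : U) : Ω ≃ₐ[k] Ω) θ) := by
    rw [Subgroup.coe_mul, Subgroup.coe_mul, AlgEquiv.mul_apply, AlgEquiv.mul_apply,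
      hNF _ hhN θ hθ]
  rw [e1, e2, map_mul, mul_inv_rev]
  have e3 : (σ : Ω ≃ₐ[k] Ω) (((χ c.out)⁻¹ : Ωˣ) : Ω) = (((χ c.out)⁻¹ : Ωˣ) : Ω) := by
    rw [← map_inv]; exact hχU σ _
  rw [e3]
  push_cast
  have hne : ((χ σ : Ωˣ) : Ω) ≠ 0 := Units.ne_zero _
  field_simp

/-- The resolvent lies in `F` when `θ ∈ F` and the values of `χ` lie in `F`. -/
theorem resolvent_mem [Fintype (U ⧸ N.subgroupOf U)] (χ : U →* Ωˣ)
    (hχF : ∀ τ : U, ((χ τ : Ωˣ) : Ω) ∈ F)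
    (hFU : ∀ σ : U, ∀ x ∈ F, (σ : Ω ≃ₐ[k] Ω) x ∈ F) {θ : Ω} (hθ : θ ∈ F) :
    resolvent U N χ θ ∈ F := by
  unfold resolvent
  refine sum_mem fun c _ => mul_mem ?_ (hFU _ _ hθ)
  rw [← map_inv]
  exact hχF _

/-- Some resolvent is nonzero (Dedekind's independence of characters). -/
theorem exists_resolvent_ne_zero [Fintype (U ⧸ N.subgroupOf U)] (χ : U →* Ωˣ)
    (hFN : ∀ g : U, (∀ x ∈ F, (g : Ω ≃ₐ[k] Ω) x = x) → (g : Ω ≃ₐ[k] Ω) ∈ N) :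
    ∃ θ ∈ F, resolvent U N χ θ ≠ 0 := by
  classical
  by_contra hcon
  push Not at hcon
  -- the characters `F → Ω` attached to the representatives
  let φ : (U ⧸ N.subgroupOf U) → (↥F →* Ω) := fun c =>
    ((((c.out : U) : Ω ≃ₐ[k] Ω) : Ω →* Ω)).comp (F.val : ↥F →* Ω)
  have hφinj : Function.Injective φ := by
    intro c c' h
    rw [← QuotientGroup.out_eq' c, ← QuotientGroup.out_eq' c']
    rw [QuotientGroup.eq, Subgroup.mem_subgroupOf]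
    apply hFN
    intro x hx
    have := DFunLike.congr_fun h ⟨x, hx⟩
    simp only [φ, MonoidHom.coe_comp, Function.comp_apply] at this
    have h2 : ((c.out : U) : Ω ≃ₐ[k] Ω) x = ((c'.out : U) : Ω ≃ₐ[k] Ω) x := this
    rw [Subgroup.coe_mul, Subgroup.coe_inv, AlgEquiv.mul_apply, ← h2]
    exact AlgEquiv.symm_apply_apply _ _
  have hli : LinearIndependent Ω (fun c : U ⧸ N.subgroupOf U => (φ c : ↥F → Ω)) :=
    (linearIndependent_monoidHom ↥F Ω).comp φ hφinj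
  rw [Fintype.linearIndependent_iff] at hli
  have hzero : ∑ c : U ⧸ N.subgroupOf U, (((χ c.out)⁻¹ : Ωˣ) : Ω) • (φ c : ↥F → Ω) = 0 := by
    funext x
    rw [Finset.sum_apply]
    have := hcon x.1 x.2
    unfold resolvent at this
    simpa [φ, Pi.smul_apply, smul_eq_mul] using this
  have := hli _ hzero (QuotientGroup.mk 1)
  exact Units.ne_zero _ this

/-- **Hilbert 90 for characters, resolvent form.** -/
theorem exists_kummer_elt_of_character (hfin : (N.subgroupOf U).FiniteIndex) (χ : U →* Ωˣ)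
    (hχU : ∀ σ τ : U, (σ : Ω ≃ₐ[k] Ω) ((χ τ : Ωˣ) : Ω) = ((χ τ : Ωˣ) : Ω))
    (hχN : ∀ s : U, (s : Ω ≃ₐ[k] Ω) ∈ N → χ s = 1)
    (hχF : ∀ τ : U, ((χ τ : Ωˣ) : Ω) ∈ F)
    (hNF : ∀ s ∈ N, ∀ x ∈ F, s x = x)
    (hFN : ∀ g : U, (∀ x ∈ F, (g : Ω ≃ₐ[k] Ω) x = x) → (g : Ω ≃ₐ[k] Ω) ∈ N)
    (hFU : ∀ σ : U, ∀ x ∈ F, (σ : Ω ≃ₐ[k] Ω) x ∈ F) :
    ∃ β ∈ F, β ≠ 0 ∧ ∀ σ : U, (σ : Ω ≃ₐ[k] Ω) β = ((χ σ : Ωˣ) : Ω) * β := by
  classical
  haveI : Fintype (U ⧸ N.subgroupOf U) := Subgroup.fintypeQuotientOfFiniteIndex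
  obtain ⟨θ, hθ, hne⟩ := exists_resolvent_ne_zero (U := U) (N := N) (F := F) χ hFN
  exact ⟨resolvent U N χ θ, resolvent_mem χ hχF hFU hθ, hne,
    fun σ => map_resolvent χ hχU hχN hNF hθ σ⟩

end Resolvent

end Fermat.Agent.TW.Euler.Kummer
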