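/-
S56 / GW-Euler, node EU-4b (Kummer dictionary), helper17.
Concrete Kummer theory for LC characters of an open subgroup `U ≤ G_ℚ` (level structure
`globalLevel T`) with `ζ_p` fixed by `U`:
* `exists_kummer_elt`: every LC character `f : U → 𝔽_p` is `σ ↦ log_ζ (σ β / β)` for some
  `β ∈ ℚ_T`, `β ≠ 0` (Hilbert 90 by the Lagrange resolvent at a finite Galois level);
* `exists_valuation_pow_eq`: `β ^ p` has valuation `q ^ (p n)` at every place outside `T`;
* `exists_xchar_of_root`: conversely a `p`-th root `α ∈ ℚ_T` of a `U`-invariant element has an LC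
  Kummer character.
-/
import Fermat.Agent.TW.Euler.Kummer.Resolvent
import Fermat.Agent.CFT.Global.ValESBridge
import Fermat.Agent.CFT.LC.KummerPairing
import Fermat.Agent.S13.InertiaValue
import Fermat.Agent.S55.LCBridgeGlobal

set_option autoImplicit false
set_option linter.unusedSectionVars false
set_option linter.style.haveILetI false

open groupCohomology
open Fermat.Agent.CFT Fermat.Agent.CFT.LCSym Fermat.Agent.S55

namespace Fermat.Agent.TW.Euler.Kummer

local notation "Qb" => AlgebraicClosure ℚ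
local notation "GQ" => (AlgebraicClosure ℚ ≃ₐ[ℚ] AlgebraicClosure ℚ)

/-- The level structure induced by `globalLevel T` on a subgroup `U` of `G_ℚ`. -/
noncomputable abbrev levU (T : Finset Nat.Primes) (U : Subgroup GQ) : LevelStructure U :=
  (globalLevel T).comap U.subtype

variable {p : ℕ} {T : Finset Nat.Primes} {U : Subgroup GQ}

/-- A Galois level is stable under `G_ℚ`. -/
theorem map_mem_of_isGalois (F : IntermediateField ℚ Qb) (hF : IsGalois ℚ F) (σ : GQ) {x : Qb}
    (hx : x ∈ F) : σ x ∈ F := by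
  haveI : IsAlgClosure ℚ Qb := AlgebraicClosure.instIsAlgClosure ℚ
  haveI : Normal ℚ Qb := IsAlgClosure.normal ℚ Qb
  have hn : Normal ℚ F := hF.to_normal
  have h := IntermediateField.normal_iff_forall_map_le'.1 hn σ
  exact h ⟨x, hx, rfl⟩

/-- An element fixed by the fixing subgroup of a finite level lies in the level. -/
theorem mem_of_fixingSubgroup_fixes (F : IntermediateField ℚ Qb) [FiniteDimensional ℚ F] {x : Qb}
    (hx : ∀ σ ∈ F.fixingSubgroup, σ x = x) : x ∈ F := by
  haveI : IsGalois ℚ Qb := Fermat.Agent.S54.FrobExists.isGalois_rat_algebraicClosure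
  have hmem : x ∈ IntermediateField.fixedField F.fixingSubgroup := by
    rw [IntermediateField.mem_fixedField_iff]
    exact hx
  rwa [InfiniteGalois.fixedField_fixingSubgroup] at hmem

/-- A common finite Galois level below `U` on which an LC function is constant. -/
theorem exists_level_le (hU : (globalLevel T).IsOpen U) {X : Type*} (f : U → X)
    (hf : (levU T U).IsLC₁ f) :
    ∃ F : IntermediateField ℚ Qb, IsGalois ℚ F ∧ F.IsUnramifiedOutside T ∧
      F.fixingSubgroup ≤ U ∧ ∀ g s : U, (s : GQ) ∈ F.fixingSubgroup → f (g * s) = f g := by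
  obtain ⟨N', ⟨N₀, hN₀, rfl⟩, hinv⟩ := hf
  obtain ⟨N₁, hN₁, hN₁U⟩ := hU
  obtain ⟨N₂, ⟨F, hgal, hF, rfl⟩, hle⟩ := (globalLevel T).directed hN₀ hN₁
  refine ⟨F, hgal, hF, (hle.trans inf_le_right).trans hN₁U, fun g s hs => hinv g s ?_⟩
  exact Subgroup.mem_comap.2 ((hle.trans inf_le_left) hs)

section Hilbert90

variable [NeZero p]

/-- `ζ ^ (a + b).val = ζ ^ a.val * ζ ^ b.val` for a `p`-th root of unity. -/
theorem pow_val_add {M : Type*} [Monoid M] {ζ : M} (hζ : ζ ^ p = 1) (a b : ZMod p) :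
    ζ ^ (a + b).val = ζ ^ a.val * ζ ^ b.val := by
  rw [← pow_add, ZMod.val_add, ← pow_eq_pow_mod _ hζ]

/-- **Hilbert 90 for LC characters**: every LC character `f : U → 𝔽_p` (`ζ_p` fixed by `U`) is the
Kummer character of some nonzero `β` in a level field, in particular `β ∈ ℚ_T`. -/
theorem exists_kummer_elt (hU : (globalLevel T).IsOpen U) {ζ : Qb} (hζ : ζ ^ p = 1)
    (hζU : ∀ σ ∈ U, σ ζ = ζ) (f : XChar (levU T U) p) :
    ∃ β : Qb, β ≠ 0 ∧ β ∈ QS T ∧
      ∀ σ : U, (σ : GQ) β = ζ ^ ((f : U → ZMod p) σ).val * β := by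
  obtain ⟨F, hgal, hF, hFU, hinv⟩ := exists_level_le hU (f : U → ZMod p) f.2.2
  haveI : FiniteDimensional ℚ F := hF.1
  have hζ0 : ζ ≠ 0 := by
    rintro rfl
    rw [zero_pow (NeZero.ne p)] at hζ
    exact zero_ne_one hζ
  -- the character with values in `Qbˣ`
  let ζu : Qbˣ := Units.mk0 ζ hζ0
  have hζu : ζu ^ p = 1 := Units.ext (by rw [Units.val_pow_eq_pow_val]; exact hζ)
  let χ : U →* Qbˣ :=
    { toFun := fun σ => ζu ^ ((f : U → ZMod p) σ).val
      map_one' := by rw [XChar.map_one f, ZMod.val_zero, pow_zero]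
      map_mul' := fun σ τ => by rw [XChar.map_mul f, pow_val_add hζu] }
  have hχval : ∀ σ : U, ((χ σ : Qbˣ) : Qb) = ζ ^ ((f : U → ZMod p) σ).val := fun σ => by
    show ((ζu ^ ((f : U → ZMod p) σ).val : Qbˣ) : Qb) = _
    rw [Units.val_pow_eq_pow_val]; rfl
  have hζF : ζ ∈ F := mem_of_fixingSubgroup_fixes F fun σ hσ => hζU σ (hFU hσ)
  haveI hfinN : F.fixingSubgroup.FiniteIndex := finiteIndex_fixingSubgroup F
  obtain ⟨β, hβF, hβ0, hβ⟩ := exists_kummer_elt_of_character (U := U) (N := F.fixingSubgroup)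
    (F := F) inferInstance χ
    (fun σ τ => by rw [hχval, map_pow, hζU _ σ.2])
    (fun s hs => by
      apply Units.ext
      rw [hχval, Units.val_one]
      have h1 := hinv 1 s hs
      rw [one_mul, XChar.map_one f] at h1
      rw [h1, ZMod.val_zero, pow_zero])
    (fun τ => by rw [hχval]; exact pow_mem hζF _)
    (fun s hs x hx => (IntermediateField.mem_fixingSubgroup_iff _ _).1 hs x hx)
    (fun g hg => (IntermediateField.mem_fixingSubgroup_iff _ _).2 hg)
    (fun σ x hx => map_mem_of_isGalois F hgal _ hx)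
  refine ⟨β, hβ0, le_QS_of_isUnramifiedOutside hF hβF, fun σ => ?_⟩
  rw [hβ σ, hχval]

end Hilbert90

/-- Valuations of an element of `ℚ_T` at the places outside `T` are powers of the valuation of
the residue characteristic; hence those of its `p`-th power are `p`-th powers. -/
theorem exists_valuation_pow_eq {β : Qb} (hβ0 : β ≠ 0) (hβ : β ∈ QS T) (q : Nat.Primes)
    (hq : q ∉ T) (A : ValuationSubring Qb) (hA : A.LiesOverPrime (q : ℕ)) :
    ∃ n : ℤ, A.valuation (β ^ p) = A.valuation ((q : ℕ) : Qb) ^ ((p : ℤ) * n) := by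
  haveI : IsGalois ℚ Qb := Fermat.Agent.S54.FrobExists.isGalois_rat_algebraicClosure
  obtain ⟨n, hn⟩ := Fermat.Agent.S13.valuation_eq_zpow_of_inertia_fixed A q.2 hA hβ0
    (fun σ hσ => mem_QS_iff'.1 hβ q hq A hA σ hσ)
  refine ⟨n, ?_⟩
  rw [map_pow, hn, ← zpow_natCast, ← zpow_mul, mul_comm]

section Converse

variable [NeZero p]

/-- **Kummer characters are LC**: a `p`-th root `α ∈ ℚ_T` of a `U`-invariant element defines an
LC character of `U`. -/
theorem exists_xchar_of_root {ζ : Qb} (hζ : IsPrimitiveRoot ζ p) (hζU : ∀ σ ∈ U, σ ζ = ζ)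
    {α : Qb} (hα0 : α ≠ 0) (hαT : α ∈ QS T) (hαU : ∀ σ ∈ U, σ (α ^ p) = α ^ p) :
    ∃ f : XChar (levU T U) p, ∀ σ : U, (σ : GQ) α = ζ ^ ((f : U → ZMod p) σ).val * α := by
  classical
  have hp0 : 0 < p := Nat.pos_of_ne_zero (NeZero.ne p)
  -- the exponent of `σ α / α`
  have hex : ∀ σ : U, ∃ i : ℕ, i < p ∧ ζ ^ i = (σ : GQ) α / α := fun σ => by
    refine hζ.eq_pow_of_pow_eq_one ?_
    rw [div_pow, ← map_pow, hαU _ σ.2, div_self (pow_ne_zero _ hα0)]
  choose e he_lt he using hex
  have hspec : ∀ σ : U, (σ : GQ) α = ζ ^ (e σ) * α := fun σ => by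
    rw [he σ, div_mul_cancel₀ _ hα0]
  have hval : ∀ σ : U, ((e σ : ℕ) : ZMod p).val = e σ := fun σ => ZMod.val_cast_of_lt (he_lt σ)
  -- uniqueness of exponents mod `p`
  have huniq : ∀ (a b : ZMod p), ζ ^ a.val * α = ζ ^ b.val * α → a = b := fun a b h => by
    have h1 : ζ ^ a.val = ζ ^ b.val := mul_right_cancel₀ hα0 h
    have h2 := hζ.pow_inj (ZMod.val_lt a) (ZMod.val_lt b) h1
    exact ZMod.val_injective p h2
  refine ⟨⟨fun σ => ((e σ : ℕ) : ZMod p), ?_, ?_⟩, fun σ => ?_⟩
  · refine (mem_cocycles₁_iff (A := FpRep U p) _).2 fun g h => ?_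
    show ((e (g * h) : ℕ) : ZMod p) = ((e h : ℕ) : ZMod p) + ((e g : ℕ) : ZMod p)
    apply huniq
    rw [hval, pow_val_add hζ.pow_eq_one, hval, hval, ← hspec (g * h), Subgroup.coe_mul,
      AlgEquiv.mul_apply, hspec h, map_mul, map_pow, hζU _ g.2, hspec g]
    ring
  · obtain ⟨E, hE, hgal, hαE⟩ := exists_isGalois_level_of_finset ({α} : Finset Qb)
      (fun x hx => by rw [Finset.mem_singleton.1 hx]; exact hαT)
    refine ⟨E.fixingSubgroup.comap U.subtype, ⟨E.fixingSubgroup, ⟨E, hgal, hE, rfl⟩, rfl⟩,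
      fun g s hs => ?_⟩
    have hsα : (s : GQ) α = α :=
      (IntermediateField.mem_fixingSubgroup_iff _ _).1 (Subgroup.mem_comap.1 hs) α
        (hαE α (Finset.mem_singleton_self α))
    show ((e (g * s) : ℕ) : ZMod p) = ((e g : ℕ) : ZMod p)
    apply huniq
    rw [hval, hval, ← hspec (g * s), ← hspec g, Subgroup.coe_mul, AlgEquiv.mul_apply, hsα]
  · show (σ : GQ) α = ζ ^ (((e σ : ℕ) : ZMod p)).val * α
    rw [hval, hspec σ]

end Converse

end Fermat.Agent.TW.Euler.Kummer
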