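/-
S56 / GW-Euler, node EU-4b (Kummer dictionary), helper17.
The Kummer map `κ : O_{K_U,T}^× → H¹_LC(U, 𝔽_p)` for an open subgroup `U ≤ G_ℚ` (level structure
`globalLevel T`, `p ∈ T`, `ζ_p` fixed by `U`), in the concrete language of `valES T ≤ Qbˣ`:
* `tUnits T U`: the `T`-units of the fixed field of `U`;
* `kummerChar`, `kummerChar_spec`: `σ α = ζ ^ (κ u σ) * α` for EVERY `p`-th root `α` of `u`;
* `kummerChar_mul`, `kummerChar_eq_zero_iff` (kernel = `p`-th powers of `T`-units);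
* `HCl p T U` ("`Cl_T(K_U)[p] = 0`" in valuation form) and `kummerChar_surjective`;
* `kummerChar_conj`: equivariance for the conjugation by `t ∈ G_ℚ` normalising `U`.
-/
import Fermat.Agent.TW.Euler.Kummer.KummerGen
import Fermat.Agent.CFT.LC.KummerDescent

set_option autoImplicit false
set_option linter.unusedSectionVars false
set_option linter.style.haveILetI false

open groupCohomology
open Fermat.Agent.CFT Fermat.Agent.CFT.LCSym Fermat.Agent.S55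

namespace Fermat.Agent.TW.Euler.Kummer

local notation "Qb" => AlgebraicClosure ℚ
local notation "GQ" => (AlgebraicClosure ℚ ≃ₐ[ℚ] AlgebraicClosure ℚ)

variable {p : ℕ} {T : Finset Nat.Primes} {U : Subgroup GQ}

/-- The `T`-units of the fixed field of `U`, as a subgroup of `Qbˣ`. -/
def tUnits (T : Finset Nat.Primes) (U : Subgroup GQ) : Subgroup Qbˣ where
  carrier := {u | u ∈ valES T ∧ ∀ σ ∈ U, σ (u : Qb) = (u : Qb)}
  one_mem' := ⟨one_mem _, fun σ _ => by rw [Units.val_one, map_one]⟩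
  mul_mem' {a b} ha hb := ⟨mul_mem ha.1 hb.1, fun σ hσ => by
    rw [Units.val_mul, map_mul, ha.2 σ hσ, hb.2 σ hσ]⟩
  inv_mem' {a} ha := ⟨inv_mem ha.1, fun σ hσ => by
    rw [Units.val_inv_eq_inv_val, map_inv₀, ha.2 σ hσ]⟩

theorem mem_tUnits {u : Qbˣ} :
    u ∈ tUnits T U ↔ u ∈ valES T ∧ ∀ σ ∈ U, σ (u : Qb) = (u : Qb) := Iff.rfl

/-- "`Cl_T(K_U)[p] = 0`", in the valuation language of the Prelude: an element of `K_U` whose
valuations outside `T` are divisible by `p` is a `T`-unit times a `p`-th power. -/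
def HCl (p : ℕ) (T : Finset Nat.Primes) (U : Subgroup GQ) : Prop :=
  ∀ x : Qb, x ≠ 0 → (∀ σ ∈ U, σ x = x) →
    (∀ q : Nat.Primes, q ∉ T → ∀ A : ValuationSubring Qb, A.LiesOverPrime (q : ℕ) →
      ∃ n : ℤ, A.valuation x = A.valuation ((q : ℕ) : Qb) ^ ((p : ℤ) * n)) →
    ∃ (y : Qb) (u : Qbˣ), y ≠ 0 ∧ (∀ σ ∈ U, σ y = y) ∧ u ∈ tUnits T U ∧ x = (u : Qb) * y ^ p

section Map

variable [NeZero p]

/-- Two LC characters with the same Kummer relation for a nonzero `α` coincide. -/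
theorem xchar_ext_of_spec {ζ : Qb} (hζ : IsPrimitiveRoot ζ p) {α : Qb} (hα0 : α ≠ 0)
    {f f' : XChar (levU T U) p}
    (h : ∀ σ : U, ζ ^ ((f : U → ZMod p) σ).val * α = ζ ^ ((f' : U → ZMod p) σ).val * α) :
    f = f' := by
  apply Subtype.ext
  funext σ
  have h1 : ζ ^ ((f : U → ZMod p) σ).val = ζ ^ ((f' : U → ZMod p) σ).val :=
    mul_right_cancel₀ hα0 (h σ)
  exact ZMod.val_injective p (hζ.pow_inj (ZMod.val_lt _) (ZMod.val_lt _) h1)

/-- Existence of the Kummer character of a `T`-unit of `K_U`, valid for every `p`-th root. -/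
theorem exists_kummerChar_tUnits (hp : p.Prime) (hpT : ∀ q : Nat.Primes, q ∉ T → (q : ℕ) ≠ p)
    {ζ : Qb} (hζ : IsPrimitiveRoot ζ p) (hζU : ∀ σ ∈ U, σ ζ = ζ) {u : Qbˣ} (hu : u ∈ tUnits T U) :
    ∃ f : XChar (levU T U) p, ∀ α : Qb, α ^ p = (u : Qb) →
      ∀ σ : U, (σ : GQ) α = ζ ^ ((f : U → ZMod p) σ).val * α := by
  obtain ⟨y, hy, hyu⟩ := exists_pow_eq_of_mem_valES hp hpT hu.1
  have hyu' : (y : Qb) ^ p = (u : Qb) := by rw [← Units.val_pow_eq_pow_val, hyu]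
  obtain ⟨f, hf⟩ := exists_xchar_of_root (T := T) (U := U) hζ hζU y.ne_zero (mem_valES_iff.1 hy).1
    (fun σ hσ => by rw [hyu', hu.2 σ hσ])
  refine ⟨f, fun α hα σ => ?_⟩
  have hα0 : α ≠ 0 := by
    rintro rfl
    rw [zero_pow (NeZero.ne p)] at hα
    exact u.ne_zero hα.symm
  -- `α = ζ ^ i * y`
  have hquot : (α / (y : Qb)) ^ p = 1 := by
    rw [div_pow, hα, hyu', div_self u.ne_zero]
  obtain ⟨i, -, hi⟩ := hζ.eq_pow_of_pow_eq_one hquot
  have hαy : α = ζ ^ i * (y : Qb) := by rw [hi, div_mul_cancel₀ _ y.ne_zero]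
  rw [hαy, map_mul, map_pow, hζU _ σ.2, hf σ]
  ring

/-- The Kummer character of a `T`-unit of `K_U`. -/
noncomputable def kummerChar (hp : p.Prime) (hpT : ∀ q : Nat.Primes, q ∉ T → (q : ℕ) ≠ p)
    {ζ : Qb} (hζ : IsPrimitiveRoot ζ p) (hζU : ∀ σ ∈ U, σ ζ = ζ) (u : tUnits T U) :
    XChar (levU T U) p :=
  (exists_kummerChar_tUnits hp hpT hζ hζU u.2).choose

theorem kummerChar_spec (hp : p.Prime) (hpT : ∀ q : Nat.Primes, q ∉ T → (q : ℕ) ≠ p)
    {ζ : Qb} (hζ : IsPrimitiveRoot ζ p) (hζU : ∀ σ ∈ U, σ ζ = ζ) (u : tUnits T U) {α : Qb}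
    (hα : α ^ p = ((u : Qbˣ) : Qb)) (σ : U) :
    (σ : GQ) α = ζ ^ ((kummerChar hp hpT hζ hζU u : U → ZMod p) σ).val * α :=
  (exists_kummerChar_tUnits hp hpT hζ hζU u.2).choose_spec α hα σ

/-- Characterisation: an LC character satisfying the Kummer relation for ONE root is `κ u`. -/
theorem kummerChar_eq_of_spec (hp : p.Prime) (hpT : ∀ q : Nat.Primes, q ∉ T → (q : ℕ) ≠ p)
    {ζ : Qb} (hζ : IsPrimitiveRoot ζ p) (hζU : ∀ σ ∈ U, σ ζ = ζ) (u : tUnits T U) {α : Qb}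
    (hα : α ^ p = ((u : Qbˣ) : Qb)) (f : XChar (levU T U) p)
    (hf : ∀ σ : U, (σ : GQ) α = ζ ^ ((f : U → ZMod p) σ).val * α) :
    kummerChar hp hpT hζ hζU u = f := by
  have hα0 : α ≠ 0 := by
    rintro rfl
    rw [zero_pow (NeZero.ne p)] at hα
    exact (u : Qbˣ).ne_zero hα.symm
  refine xchar_ext_of_spec hζ hα0 fun σ => ?_
  rw [← kummerChar_spec hp hpT hζ hζU u hα σ, hf σ]

/-- A `p`-th root in `Qb` of any element. -/
theorem exists_root (hp : p.Prime) (x : Qb) : ∃ α : Qb, α ^ p = x :=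
  IsAlgClosed.exists_pow_nat_eq x hp.pos

theorem kummerChar_mul (hp : p.Prime) (hpT : ∀ q : Nat.Primes, q ∉ T → (q : ℕ) ≠ p)
    {ζ : Qb} (hζ : IsPrimitiveRoot ζ p) (hζU : ∀ σ ∈ U, σ ζ = ζ) (u v : tUnits T U) :
    kummerChar hp hpT hζ hζU (u * v) =
      kummerChar hp hpT hζ hζU u + kummerChar hp hpT hζ hζU v := by
  obtain ⟨a, ha⟩ := exists_root hp ((u : Qbˣ) : Qb)
  obtain ⟨b, hb⟩ := exists_root hp ((v : Qbˣ) : Qb)
  have hab : (a * b) ^ p = (((u * v : tUnits T U) : Qbˣ) : Qb) := by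
    rw [mul_pow, ha, hb, Subgroup.coe_mul, Units.val_mul]
  refine kummerChar_eq_of_spec hp hpT hζ hζU (u * v) hab _ fun σ => ?_
  rw [map_mul, kummerChar_spec hp hpT hζ hζU u ha σ, kummerChar_spec hp hpT hζ hζU v hb σ]
  show _ = ζ ^ ((kummerChar hp hpT hζ hζU u : U → ZMod p) σ +
    (kummerChar hp hpT hζ hζU v : U → ZMod p) σ).val * (a * b)
  rw [pow_val_add hζ.pow_eq_one]
  ring

theorem kummerChar_one (hp : p.Prime) (hpT : ∀ q : Nat.Primes, q ∉ T → (q : ℕ) ≠ p)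
    {ζ : Qb} (hζ : IsPrimitiveRoot ζ p) (hζU : ∀ σ ∈ U, σ ζ = ζ) :
    kummerChar hp hpT hζ hζU (1 : tUnits T U) = 0 := by
  have h := kummerChar_mul hp hpT hζ hζU (1 : tUnits T U) 1
  rw [mul_one] at h
  exact left_eq_add.mp h

/-- The Kummer map as a homomorphism `O_{K_U,T}^× → H¹_LC(U, 𝔽_p)`. -/
noncomputable def kummerHom (hp : p.Prime) (hpT : ∀ q : Nat.Primes, q ∉ T → (q : ℕ) ≠ p)
    {ζ : Qb} (hζ : IsPrimitiveRoot ζ p) (hζU : ∀ σ ∈ U, σ ζ = ζ) :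
    Additive (tUnits T U) →+ XChar (levU T U) p where
  toFun u := kummerChar hp hpT hζ hζU (Additive.toMul u)
  map_zero' := kummerChar_one hp hpT hζ hζU
  map_add' _ _ := kummerChar_mul hp hpT hζ hζU _ _

/-- **Kernel of the Kummer map** = `p`-th powers of `T`-units of `K_U`. -/
theorem kummerChar_eq_zero_iff (hp : p.Prime) (hpT : ∀ q : Nat.Primes, q ∉ T → (q : ℕ) ≠ p)
    {ζ : Qb} (hζ : IsPrimitiveRoot ζ p) (hζU : ∀ σ ∈ U, σ ζ = ζ) (u : tUnits T U) :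
    kummerChar hp hpT hζ hζU u = 0 ↔ ∃ v : tUnits T U, v ^ p = u := by
  constructor
  · intro h0
    obtain ⟨y, hy, hyu⟩ := exists_pow_eq_of_mem_valES hp hpT u.2.1
    have hyu' : (y : Qb) ^ p = ((u : Qbˣ) : Qb) := by rw [← Units.val_pow_eq_pow_val, hyu]
    refine ⟨⟨y, hy, fun σ hσ => ?_⟩, Subtype.ext hyu⟩
    have := kummerChar_spec hp hpT hζ hζU u hyu' ⟨σ, hσ⟩
    rw [h0] at this
    simpa using this
  · rintro ⟨v, rfl⟩
    have hv : ((v : Qbˣ) : Qb) ^ p = (((v ^ p : tUnits T U) : Qbˣ) : Qb) := by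
      rw [Subgroup.coe_pow, Units.val_pow_eq_pow_val]
    refine kummerChar_eq_of_spec hp hpT hζ hζU (v ^ p) hv 0 fun σ => ?_
    show (σ : GQ) ((v : Qbˣ) : Qb) = ζ ^ (0 : ZMod p).val * _
    rw [ZMod.val_zero, pow_zero, one_mul, v.2.2 _ σ.2]

/-- **Surjectivity of the Kummer map** when `Cl_T(K_U)[p] = 0`. -/
theorem kummerChar_surjective (hp : p.Prime) (hpT : ∀ q : Nat.Primes, q ∉ T → (q : ℕ) ≠ p)
    (hU : (globalLevel T).IsOpen U) {ζ : Qb} (hζ : IsPrimitiveRoot ζ p)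
    (hζU : ∀ σ ∈ U, σ ζ = ζ) (hcl : HCl p T U) (f : XChar (levU T U) p) :
    ∃ u : tUnits T U, kummerChar hp hpT hζ hζU u = f := by
  obtain ⟨β, hβ0, hβT, hβ⟩ := exists_kummer_elt hU hζ.pow_eq_one hζU f
  have hxU : ∀ σ ∈ U, σ (β ^ p) = β ^ p := fun σ hσ => by
    have := hβ ⟨σ, hσ⟩
    rw [map_pow, this, mul_pow, ← pow_mul, mul_comm _ p, pow_mul, hζ.pow_eq_one, one_pow, one_mul]
  obtain ⟨y, u, hy0, hyU, hu, hxy⟩ := hcl (β ^ p) (pow_ne_zero _ hβ0) hxU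
    (fun q hq A hA => exists_valuation_pow_eq hβ0 hβT q hq A hA)
  refine ⟨⟨u, hu⟩, ?_⟩
  have hα : (β / y) ^ p = (u : Qb) := by
    rw [div_pow, hxy, mul_div_assoc, div_self (pow_ne_zero _ hy0), mul_one]
  refine kummerChar_eq_of_spec hp hpT hζ hζU ⟨u, hu⟩ hα f fun σ => ?_
  rw [map_div₀, hβ σ, hyU _ σ.2, mul_div_assoc]

end Map

section Equivariance

variable [NeZero p]

/-- The Galois action on the `T`-units of `K_U`, `U` normal. -/
theorem map_mem_tUnits [hU : U.Normal] (t : GQ) {u : Qbˣ} (hu : u ∈ tUnits T U) :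
    Units.map (t : Qb →* Qb) u ∈ tUnits T U := by
  refine ⟨map_mem_valES hu.1 t, fun σ hσ => ?_⟩
  show σ (t (u : Qb)) = t (u : Qb)
  have h1 : t⁻¹ * σ * t ∈ U := by
    have := hU.conj_mem σ hσ t⁻¹
    rwa [inv_inv] at this
  have h2 := hu.2 _ h1
  have h3 : σ (t (u : Qb)) = t ((t⁻¹ * σ * t) (u : Qb)) := by
    simp only [AlgEquiv.mul_apply]
    rw [show t (t⁻¹ (σ (t (u : Qb)))) = σ (t (u : Qb)) from AlgEquiv.apply_symm_apply t _]
  rw [h3, h2]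

/-- **Equivariance of the Kummer map**: `κ (t u) = c(t) • (t · κ u)` where `t ζ = ζ ^ c(t)` and
`(t · f)(σ) = f (t⁻¹ σ t)` (main's `conjX`). -/
theorem kummerChar_conj [hU : U.Normal] (hp : p.Prime)
    (hpT : ∀ q : Nat.Primes, q ∉ T → (q : ℕ) ≠ p) {ζ : Qb} (hζ : IsPrimitiveRoot ζ p)
    (hζU : ∀ σ ∈ U, σ ζ = ζ) (t : GQ) {c : ZMod p} (hc : t ζ = ζ ^ c.val) (u : tUnits T U)
    (σ : U) :
    (kummerChar hp hpT hζ hζU ⟨Units.map (t : Qb →* Qb) (u : Qbˣ), map_mem_tUnits t u.2⟩ :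
        U → ZMod p) σ
      = c * (kummerChar hp hpT hζ hζU u : U → ZMod p) (conjElt U t σ) := by
  obtain ⟨α, hα⟩ := exists_root hp ((u : Qbˣ) : Qb)
  have htα : (t α) ^ p = ((Units.map (t : Qb →* Qb) (u : Qbˣ) : Qbˣ) : Qb) := by
    rw [← map_pow, hα]; rfl
  have hα0 : α ≠ 0 := by
    rintro rfl
    rw [zero_pow (NeZero.ne p)] at hα
    exact (u : Qbˣ).ne_zero hα.symm
  have h1 := kummerChar_spec hp hpT hζ hζU
    ⟨Units.map (t : Qb →* Qb) (u : Qbˣ), map_mem_tUnits t u.2⟩ htα σ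
  have h2 := kummerChar_spec hp hpT hζ hζU u hα (conjElt U t σ)
  -- `σ (t α) = t ((t⁻¹ σ t) α)`
  have h3 : (σ : GQ) (t α) = t (((conjElt U t σ : U) : GQ) α) := by
    rw [coe_conjElt]
    simp only [AlgEquiv.mul_apply]
    rw [show t (t⁻¹ ((σ : GQ) (t α))) = (σ : GQ) (t α) from AlgEquiv.apply_symm_apply t _]
  rw [h3, h2, map_mul, map_pow, hc, ← pow_mul] at h1
  -- compare exponents
  have h4 : ζ ^ (c.val * ((kummerChar hp hpT hζ hζU u : U → ZMod p) (conjElt U t σ)).val)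
      = ζ ^ (c * (kummerChar hp hpT hζ hζU u : U → ZMod p) (conjElt U t σ)).val := by
    rw [ZMod.val_mul, ← pow_eq_pow_mod _ hζ.pow_eq_one]
  rw [h4] at h1
  have htα0 : t α ≠ 0 := (map_ne_zero t).2 hα0
  have h5 := mul_right_cancel₀ htα0 h1
  exact (ZMod.val_injective p (hζ.pow_inj (ZMod.val_lt _) (ZMod.val_lt _) h5)).symm

end Equivariance

end Fermat.Agent.TW.Euler.Kummer
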