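/-
S56 / GW-Euler, base case, node (K4-UNIT) of `KumEigOut` (owner helper17; this file: helper29).
Mathlib only.

`X` an abelian group, `V` an `𝔽_p`-vector space, `κ : X →+ V` surjective with kernel `p X`
(the Kummer map `O_{K,T}^× → H¹`).  For every field `k' ⊇ 𝔽_p`:

* `tensorEquiv`        : `k' ⊗_ℤ X ≃ₗ[k'] k' ⊗_{𝔽_p} V`, `a ⊗ x ↦ a ⊗ κ x`;
* `tensorEquiv_comm`   : it intertwines `s ⊗ 1` and `S ⊗ 1` whenever `κ ∘ s = S ∘ κ`;
* `finrank_eigenspace_eq`, `finrank_iInf_eigenspace_eq` : eigenspaces (of one operator / of a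
  family of operators) have the same dimension on both sides;
* `eigenspace_smul_inv` : the twist lemma `eigenspace (c • E⁻¹) μ = eigenspace E (c / μ)`.
-/
import Mathlib

set_option autoImplicit false

open TensorProduct Module

namespace Fermat.Agent.TW.Euler.K4Unit

section Equiv

/-- `k'` has characteristic `p`. -/
lemma natCast_eq_zero (p : ℕ) (k' : Type*) [Field k'] [Algebra (ZMod p) k'] :
    ((p : ℕ) : k') = 0 := by
  rw [← map_natCast (algebraMap (ZMod p) k') p, ZMod.natCast_self, map_zero]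

/-- `p` kills `k' ⊗_ℤ X`. -/
lemma zsmul_tensor_eq_zero (p : ℕ) {X : Type*} [AddCommGroup X] (k' : Type*) [Field k']
    [Algebra (ZMod p) k'] (z : k' ⊗[ℤ] X) : (p : ℤ) • z = 0 := by
  induction z with
  | zero => simp
  | add x y hx hy => rw [smul_add, hx, hy, add_zero]
  | tmul a x =>
    rw [TensorProduct.smul_tmul', zsmul_eq_mul, Int.cast_natCast,
      natCast_eq_zero p k', zero_mul, TensorProduct.zero_tmul]

/-- `1 ⊗ κ : k' ⊗_ℤ X → k' ⊗_ℤ V` is injective when `ker κ = p X` and `κ` is onto. -/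
lemma baseChange_injective {p : ℕ} {X : Type*} [AddCommGroup X] {V : Type*} [AddCommGroup V]
    {k' : Type*} [Field k'] [Algebra (ZMod p) k'] {κ : X →+ V}
    (hκ : Function.Surjective κ) (hker : ∀ x, κ x = 0 ↔ ∃ y, x = p • y) :
    Function.Injective (κ.toIntLinearMap.baseChange k') := by
  have hfg : Function.Exact ((p : ℤ) • (LinearMap.id : X →ₗ[ℤ] X)) κ.toIntLinearMap := by
    intro x
    rw [AddMonoidHom.coe_toIntLinearMap, hker x, Set.mem_range]
    constructor
    · rintro ⟨y, rfl⟩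
      exact ⟨y, by simp⟩
    · rintro ⟨y, rfl⟩
      exact ⟨y, by simp⟩
  have hex := lTensor_exact k' hfg hκ
  have hzero : LinearMap.lTensor k' ((p : ℤ) • (LinearMap.id : X →ₗ[ℤ] X)) = 0 := by
    refine LinearMap.ext fun z => ?_
    rw [LinearMap.lTensor_smul, LinearMap.lTensor_id]
    simpa using zsmul_tensor_eq_zero p k' z
  have hker' : LinearMap.ker (LinearMap.lTensor k' κ.toIntLinearMap) = ⊥ := by
    rw [hex.linearMap_ker_eq, hzero, LinearMap.range_zero]
  intro a b hab
  have : (LinearMap.lTensor k' κ.toIntLinearMap) a = (LinearMap.lTensor k' κ.toIntLinearMap) b := by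
    simpa [LinearMap.baseChange_eq_ltensor] using hab
  exact LinearMap.ker_eq_bot.mp hker' this

lemma baseChange_surjective {X : Type*} [AddCommGroup X] {V : Type*} [AddCommGroup V]
    {k' : Type*} [Field k'] {κ : X →+ V} (hκ : Function.Surjective κ) :
    Function.Surjective (κ.toIntLinearMap.baseChange k') := by
  have := LinearMap.lTensor_surjective k' (g := κ.toIntLinearMap) hκ
  intro z
  obtain ⟨w, hw⟩ := this z
  exact ⟨w, by simpa [LinearMap.baseChange_eq_ltensor] using hw⟩

lemma baseChange_bijective {p : ℕ} {X : Type*} [AddCommGroup X] {V : Type*} [AddCommGroup V]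
    {k' : Type*} [Field k'] [Algebra (ZMod p) k'] {κ : X →+ V}
    (hκ : Function.Surjective κ) (hker : ∀ x, κ x = 0 ↔ ∃ y, x = p • y) :
    Function.Bijective (κ.toIntLinearMap.baseChange k') :=
  ⟨baseChange_injective hκ hker, baseChange_surjective hκ⟩

variable {p : ℕ} [Fact p.Prime] {X : Type*} [AddCommGroup X] {V : Type*} [AddCommGroup V]
  [Module (ZMod p) V] (k' : Type*) [Field k'] [Algebra (ZMod p) k'] (κ : X →+ V)

/-- the `ℤ`- and `𝔽_p`-tensor products with `k'` agree -/
instance compatibleSMul_int_zmod : TensorProduct.CompatibleSMul ℤ (ZMod p) k' V where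
  smul_tmul r m n := by
    obtain ⟨z, rfl⟩ := ZMod.intCast_surjective r
    rw [Int.cast_smul_eq_zsmul, Int.cast_smul_eq_zsmul, TensorProduct.smul_tmul]

/-- **(K4-UNIT), the equivalence**: `k' ⊗_ℤ X ≃ k' ⊗_{𝔽_p} V`, `a ⊗ x ↦ a ⊗ κ x`. -/
noncomputable def tensorEquiv (hκ : Function.Surjective κ)
    (hker : ∀ x, κ x = 0 ↔ ∃ y, x = p • y) : k' ⊗[ℤ] X ≃ₗ[k'] k' ⊗[ZMod p] V :=
  (LinearEquiv.ofBijective (κ.toIntLinearMap.baseChange k')
    (baseChange_bijective hκ hker)).trans
    (TensorProduct.equivOfCompatibleSMul (ZMod p) ℤ k' k' V)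

@[simp] lemma tensorEquiv_tmul (hκ : Function.Surjective κ)
    (hker : ∀ x, κ x = 0 ↔ ∃ y, x = p • y) (a : k') (x : X) :
    tensorEquiv k' κ hκ hker (a ⊗ₜ[ℤ] x) = a ⊗ₜ[ZMod p] κ x := by
  rw [tensorEquiv, LinearEquiv.trans_apply, LinearEquiv.ofBijective_apply,
    LinearMap.baseChange_tmul]
  rfl

/-- **(K4-UNIT), equivariance**: `tensorEquiv` intertwines `s ⊗ 1` with `S ⊗ 1` as soon as
`κ ∘ s = S ∘ κ`. -/
lemma tensorEquiv_comm (hκ : Function.Surjective κ) (hker : ∀ x, κ x = 0 ↔ ∃ y, x = p • y)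
    (s : X →+ X) (S : V →ₗ[ZMod p] V) (hS : ∀ x, κ (s x) = S (κ x)) (z : k' ⊗[ℤ] X) :
    tensorEquiv k' κ hκ hker (s.toIntLinearMap.baseChange k' z) =
      S.baseChange k' (tensorEquiv k' κ hκ hker z) := by
  induction z with
  | zero => simp
  | add x y hx hy => simp only [map_add, hx, hy]
  | tmul a x =>
    rw [LinearMap.baseChange_tmul, tensorEquiv_tmul, tensorEquiv_tmul, LinearMap.baseChange_tmul,
      AddMonoidHom.coe_toIntLinearMap, hS]

end Equiv

section General

variable {K : Type*} [Field K] {M : Type*} [AddCommGroup M] [Module K M] {N : Type*}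
  [AddCommGroup N] [Module K N]

/-- Submodules corresponding under a linear equivalence have the same dimension. -/
lemma finrank_eq_of_mem_iff (Φ : M ≃ₗ[K] N) (P : Submodule K M) (Q : Submodule K N)
    (h : ∀ z, z ∈ P ↔ Φ z ∈ Q) : finrank K P = finrank K Q := by
  have hmap : P.map (Φ : M →ₗ[K] N) = Q := by
    ext y
    constructor
    · rintro ⟨z, hz, rfl⟩
      exact (h z).1 hz
    · intro hy
      refine ⟨Φ.symm y, (h _).2 ?_, ?_⟩
      · simpa using hy
      · simp
  rw [← hmap]
  exact (Φ.submoduleMap P).finrank_eq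

/-- A linear equivalence intertwining `f` and `g` matches their eigenspaces. -/
lemma mem_eigenspace_iff_of_comm (Φ : M ≃ₗ[K] N) (f : Module.End K M) (g : Module.End K N)
    (h : ∀ z, Φ (f z) = g (Φ z)) (μ : K) (z : M) :
    z ∈ Module.End.eigenspace f μ ↔ Φ z ∈ Module.End.eigenspace g μ := by
  rw [Module.End.mem_eigenspace_iff, Module.End.mem_eigenspace_iff, ← h, ← map_smul]
  exact Φ.injective.eq_iff.symm

lemma finrank_eigenspace_eq_of_comm (Φ : M ≃ₗ[K] N) (f : Module.End K M) (g : Module.End K N)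
    (h : ∀ z, Φ (f z) = g (Φ z)) (μ : K) :
    finrank K (Module.End.eigenspace f μ) = finrank K (Module.End.eigenspace g μ) :=
  finrank_eq_of_mem_iff Φ _ _ (mem_eigenspace_iff_of_comm Φ f g h μ)

/-- membership in a simultaneous eigenspace -/
lemma mem_iInf_eigenspace_iff {ι : Sort*} (f : ι → Module.End K M) (μ : ι → K) (z : M) :
    z ∈ ⨅ i, Module.End.eigenspace (f i) (μ i) ↔ ∀ i, f i z = μ i • z := by
  simp only [Submodule.mem_iInf, Module.End.mem_eigenspace_iff]

/-- **Twist lemma**: for mutually inverse `E`, `E'` and `μ ≠ 0`,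
`eigenspace (c • E') μ = eigenspace E (c / μ)`. -/
lemma eigenspace_smul_inv (E E' : Module.End K M) (h1 : E * E' = 1) (h2 : E' * E = 1)
    (c μ : K) (hμ : μ ≠ 0) :
    Module.End.eigenspace (c • E') μ = Module.End.eigenspace E (c / μ) := by
  have h1' : ∀ z, E (E' z) = z := fun z => by
    have := congrArg (fun T : Module.End K M => T z) h1
    simpa using this
  have h2' : ∀ z, E' (E z) = z := fun z => by
    have := congrArg (fun T : Module.End K M => T z) h2
    simpa using this
  ext z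
  rw [Module.End.mem_eigenspace_iff, Module.End.mem_eigenspace_iff, LinearMap.smul_apply]
  constructor
  · intro h
    have h2 := congrArg E h
    rw [map_smul, h1', map_smul] at h2
    -- c • z = μ • E z
    rw [div_eq_inv_mul, mul_smul, h2, smul_smul, inv_mul_cancel₀ hμ, one_smul]
  · intro h
    -- E z = (c / μ) • z; apply E' after scaling
    have hz : E' (E z) = E' ((c / μ) • z) := congrArg E' h
    rw [h2', map_smul] at hz
    -- z = (c / μ) • E' z
    have : μ • z = μ • ((c / μ) • E' z) := congrArg (fun w => μ • w) hz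
    rw [this, smul_smul, mul_div_cancel₀ c hμ]

/-- The twist lemma for a linear equivalence. -/
lemma eigenspace_smul_symm (E : M ≃ₗ[K] M) (c μ : K) (hμ : μ ≠ 0) :
    Module.End.eigenspace (c • (E.symm : Module.End K M)) μ =
      Module.End.eigenspace (E : Module.End K M) (c / μ) :=
  eigenspace_smul_inv _ _ (by ext z; simp) (by ext z; simp) c μ hμ

/-- The inverse operator: `eigenspace E' μ = eigenspace E μ⁻¹` (`μ ≠ 0`). -/
lemma eigenspace_inv (E E' : Module.End K M) (h1 : E * E' = 1) (h2 : E' * E = 1)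
    (μ : K) (hμ : μ ≠ 0) :
    Module.End.eigenspace E' μ = Module.End.eigenspace E μ⁻¹ := by
  have := eigenspace_smul_inv E E' h1 h2 1 μ hμ
  rwa [one_smul, one_div] at this

/-- Scalar twist: `eigenspace (c • f) μ = eigenspace f (μ / c)` (`c ≠ 0`). -/
lemma eigenspace_smul (f : Module.End K M) (c μ : K) (hc : c ≠ 0) :
    Module.End.eigenspace (c • f) μ = Module.End.eigenspace f (μ / c) := by
  ext z
  rw [Module.End.mem_eigenspace_iff, Module.End.mem_eigenspace_iff, LinearMap.smul_apply]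
  constructor
  · intro h
    rw [div_eq_inv_mul, mul_smul, ← h, smul_smul, inv_mul_cancel₀ hc, one_smul]
  · intro h
    rw [h, smul_smul, mul_div_cancel₀ μ hc]

/-- Scalar twist through a base change: for `c ≠ 0` in `k` and `S : V →ₗ[k] V`,
`eigenspace ((c • S) ⊗ K) μ = eigenspace (S ⊗ K) (μ / c)`. -/
lemma eigenspace_baseChange_smul {k : Type*} [Field k] [Algebra k K] {V : Type*} [AddCommGroup V]
    [Module k V] (S : V →ₗ[k] V) (c : k) (hc : c ≠ 0) (μ : K) :
    Module.End.eigenspace ((c • S).baseChange K) μ =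
      Module.End.eigenspace (S.baseChange K) (μ / algebraMap k K c) := by
  have h : (c • S).baseChange K = (algebraMap k K c) • S.baseChange K := by
    rw [LinearMap.baseChange_smul]
    ext v
    simp only [TensorProduct.AlgebraTensorModule.curry_apply, TensorProduct.curry_apply,
      LinearMap.coe_restrictScalars, LinearMap.smul_apply, algebraMap_smul]
  rw [h]
  exact eigenspace_smul _ _ _ (by simpa using hc)

end General

section Main

variable {p : ℕ} [Fact p.Prime] {X : Type*} [AddCommGroup X] {V : Type*} [AddCommGroup V]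
  [Module (ZMod p) V] (k' : Type*) [Field k'] [Algebra (ZMod p) k'] (κ : X →+ V)
  (hκ : Function.Surjective κ) (hker : ∀ x, κ x = 0 ↔ ∃ y, x = p • y)

include hκ hker

/-- **(K4-UNIT), single operator**: if `κ ∘ s = S ∘ κ` then the `μ`-eigenspaces of `s ⊗ 1` on
`k' ⊗_ℤ X` and of `S ⊗ 1` on `k' ⊗_{𝔽_p} V` have the same dimension. -/
theorem finrank_eigenspace_eq (s : X →+ X) (S : V →ₗ[ZMod p] V) (hS : ∀ x, κ (s x) = S (κ x))
    (μ : k') :
    finrank k' (Module.End.eigenspace (s.toIntLinearMap.baseChange k') μ) =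
      finrank k' (Module.End.eigenspace (S.baseChange k') μ) :=
  finrank_eigenspace_eq_of_comm (tensorEquiv k' κ hκ hker) _ _
    (tensorEquiv_comm k' κ hκ hker s S hS) μ

/-- **(K4-UNIT), family of operators, submodule form**: `P ≤ k' ⊗_ℤ X` and `Q ≤ k' ⊗_{𝔽_p} V`
cut out by the simultaneous eigen-conditions for `s i ⊗ 1`, resp. `S i ⊗ 1`, with the same
eigenvalues `μ i` have the same dimension. -/
theorem finrank_eq_of_forall {ι : Sort*} (s : ι → X →+ X) (S : ι → V →ₗ[ZMod p] V)
    (hS : ∀ i x, κ (s i x) = S i (κ x)) (μ : ι → k')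
    (P : Submodule k' (k' ⊗[ℤ] X)) (Q : Submodule k' (k' ⊗[ZMod p] V))
    (hP : ∀ a, a ∈ P ↔ ∀ i, (s i).toIntLinearMap.baseChange k' a = μ i • a)
    (hQ : ∀ b, b ∈ Q ↔ ∀ i, (S i).baseChange k' b = μ i • b) :
    finrank k' P = finrank k' Q := by
  refine finrank_eq_of_mem_iff (tensorEquiv k' κ hκ hker) P Q fun z => ?_
  rw [hP, hQ]
  refine forall_congr' fun i => ?_
  rw [← tensorEquiv_comm k' κ hκ hker (s i) (S i) (hS i), ← map_smul]
  exact (tensorEquiv k' κ hκ hker).injective.eq_iff.symm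

/-- **(K4-UNIT), family of operators, `⨅`-form**. -/
theorem finrank_iInf_eigenspace_eq {ι : Sort*} (s : ι → X →+ X) (S : ι → V →ₗ[ZMod p] V)
    (hS : ∀ i x, κ (s i x) = S i (κ x)) (μ : ι → k') :
    finrank k' ↥(⨅ i, Module.End.eigenspace ((s i).toIntLinearMap.baseChange k') (μ i)) =
      finrank k' ↥(⨅ i, Module.End.eigenspace ((S i).baseChange k') (μ i)) :=
  finrank_eq_of_forall k' κ hκ hker s S hS μ _ _
    (fun a => mem_iInf_eigenspace_iff _ _ a) (fun b => mem_iInf_eigenspace_iff _ _ b)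

end Main

end Fermat.Agent.TW.Euler.K4Unit
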